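import Mathlib

/-!
# S17, block NF, package NF-6: characters separate the points of a finite abelian quotient
-/

set_option autoImplicit false

namespace Fermat.Agent.S17.NF

/-- characters of a finite commutative group separate points. -/
theorem nf6_exists_char (F : Type*) [Field F] [IsAlgClosed F] [CharZero F]
    (Q : Type*) [CommGroup Q] [Finite Q] {a : Q} (ha : a ≠ 1) : ∃ φ : Q →* Fˣ, φ a ≠ 1 := by
  have h0 : NeZero (Monoid.exponent Q) := ⟨Monoid.exponent_ne_zero_of_finite⟩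
  have h1 : NeZero ((Monoid.exponent Q : ℕ) : F) := ⟨Nat.cast_ne_zero.2 h0.out⟩
  exact CommGroup.exists_apply_ne_one_of_hasEnoughRootsOfUnity Q F ha

/-- **NF-6.** -/
theorem exists_char_ne_one (F : Type*) [Field F] [IsAlgClosed F] [CharZero F]
    {G : Type*} [Group G] (H : Subgroup G) [H.FiniteIndex] (n : ℕ)
    (hcomm : ∀ σ τ : G, σ * τ * σ⁻¹ * τ⁻¹ ∈ H) (hpow : ∀ σ : G, σ ^ n ∈ H)
    (σ : G) (hσ : σ ∉ H) :
    ∃ ψ : G →* Fˣ, (∀ τ ∈ H, ψ τ = 1) ∧ (∀ τ, ψ τ ^ n = 1) ∧ ψ σ ≠ 1 := by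
  have hN : H.Normal := ⟨fun h hh g => by
    have h1 := H.mul_mem (hcomm g h) hh
    rwa [inv_mul_cancel_right] at h1⟩
  let _ : CommGroup (G ⧸ H) :=
    { (inferInstance : Group (G ⧸ H)) with
      mul_comm := fun a b => by
        induction a using QuotientGroup.induction_on with
        | H a =>
          induction b using QuotientGroup.induction_on with
          | H b =>
            rw [← QuotientGroup.mk_mul, ← QuotientGroup.mk_mul]
            apply QuotientGroup.eq.2
            have h1 := hcomm b⁻¹ a⁻¹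
            have h2 : (a * b)⁻¹ * (b * a) = b⁻¹ * a⁻¹ * b⁻¹⁻¹ * a⁻¹⁻¹ := by group
            rw [h2]
            exact h1 }
  have hfin : Finite (G ⧸ H) := Subgroup.finite_quotient_of_finiteIndex
  have hne : (σ : G ⧸ H) ≠ 1 := fun h => hσ ((QuotientGroup.eq_one_iff σ).1 h)
  obtain ⟨φ, hφ⟩ := nf6_exists_char F (G ⧸ H) hne
  refine ⟨φ.comp (QuotientGroup.mk' H), fun τ hτ => ?_, fun τ => ?_, hφ⟩
  · rw [MonoidHom.comp_apply, QuotientGroup.mk'_apply, (QuotientGroup.eq_one_iff τ).2 hτ, map_one]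
  · rw [← map_pow, MonoidHom.comp_apply, QuotientGroup.mk'_apply,
      (QuotientGroup.eq_one_iff (τ ^ n)).2 (hpow τ), map_one]

end Fermat.Agent.S17.NF
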