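import Mathlib
import Fermat.Agent.S55.H.TUnit

/-!
# S17, block NF, package NF-5: the field generated by the `n`-th roots of the `T`-units
-/

set_option autoImplicit false
set_option linter.style.haveILetI false

namespace Fermat.Agent.S17.NF

open NumberField IsDedekindDomain Fermat.Agent.S55.H

local notation "Qbar" => AlgebraicClosure ℚ
local notation "GQ" => (AlgebraicClosure ℚ ≃ₐ[ℚ] AlgebraicClosure ℚ)

theorem nf5_finite_roots (n : ℕ) (hn : 0 < n) (a : Qbar) : {x : Qbar | x ^ n = a}.Finite := by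
  classical
  refine Set.Finite.subset (Polynomial.nthRoots n a).toFinset.finite_toSet ?_
  intro x hx
  simpa [Polynomial.mem_nthRoots hn] using hx

/-- **NF-5.** -/
theorem exists_kummer_field (K : IntermediateField ℚ Qbar) [NumberField K]
    (T : Finset (HeightOneSpectrum (𝓞 K))) (n : ℕ) (hn : 0 < n) :
    ∃ L : IntermediateField ℚ Qbar, FiniteDimensional ℚ L ∧ K ≤ L ∧
      ∀ u : Kˣ, u ∈ TUnit K T → ∀ (c : K) (α : Qbar),
        α ^ n = (((u : Kˣ) : K) : Qbar) * (c : Qbar) ^ n → α ∈ L := by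
  classical
  have hfg : Group.FG (TUnit K T) :=
    GroupFG.iff_add_fg.2 (Module.Finite.iff_addGroup_fg.1 (tunit_finite K T))
  obtain ⟨S, hS, hSfin⟩ := Group.fg_iff.1 hfg
  set R : Set Qbar := {x : Qbar | x ^ n = 1} ∪
    ⋃ g ∈ S, {x : Qbar | x ^ n = (((g : Kˣ) : K) : Qbar)} with hR
  have hRfin : R.Finite :=
    (nf5_finite_roots n hn 1).union (hSfin.biUnion fun g _ => nf5_finite_roots n hn _)
  haveI : Finite R := hRfin
  haveI halg : Algebra.IsAlgebraic ℚ Qbar := AlgebraicClosure.isAlgebraic ℚ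
  haveI hadj : FiniteDimensional ℚ (IntermediateField.adjoin ℚ R) :=
    IntermediateField.finiteDimensional_adjoin fun x _ =>
      (Algebra.IsAlgebraic.isAlgebraic (R := ℚ) x).isIntegral
  haveI hK : FiniteDimensional ℚ K := NumberField.to_finiteDimensional
  set L : IntermediateField ℚ Qbar := K ⊔ IntermediateField.adjoin ℚ R with hL
  have hKL : K ≤ L := le_sup_left
  have hRL : ∀ x ∈ R, x ∈ L := fun x hx =>
    (le_sup_right : IntermediateField.adjoin ℚ R ≤ L) (IntermediateField.subset_adjoin ℚ R hx)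
  have hroot : ∀ w : TUnit K T, ∃ β ∈ L, β ^ n = (((w : Kˣ) : K) : Qbar) := by
    intro w
    have hw : w ∈ Subgroup.closure S := by rw [hS]; exact Subgroup.mem_top w
    induction hw using Subgroup.closure_induction with
    | mem g hg =>
      obtain ⟨β, hβ⟩ := IsAlgClosed.exists_pow_nat_eq (((g : Kˣ) : K) : Qbar) hn
      refine ⟨β, hRL β (Or.inr ?_), hβ⟩
      simp only [Set.mem_iUnion]
      exact ⟨g, hg, hβ⟩
    | one => exact ⟨1, L.one_mem, by simp⟩
    | mul x y _ _ hx hy =>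
      obtain ⟨β, hβ, h1⟩ := hx
      obtain ⟨γ, hγ, h2⟩ := hy
      refine ⟨β * γ, L.mul_mem hβ hγ, ?_⟩
      rw [mul_pow, h1, h2]
      simp
    | inv x _ hx =>
      obtain ⟨β, hβ, h1⟩ := hx
      refine ⟨β⁻¹, L.inv_mem hβ, ?_⟩
      rw [inv_pow, h1]
      simp
  refine ⟨L, IntermediateField.finiteDimensional_sup K _, hKL, ?_⟩
  intro u hu c α hα
  obtain ⟨β, hβ, hβu⟩ := hroot ⟨u, hu⟩
  have hβu' : β ^ n = (((u : Kˣ) : K) : Qbar) := hβu
  by_cases hc : (c : Qbar) = 0
  · rw [hc, zero_pow hn.ne', mul_zero] at hα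
    rw [pow_eq_zero_iff hn.ne'] at hα
    rw [hα]
    exact L.zero_mem
  · have hu0 : (((u : Kˣ) : K) : Qbar) ≠ 0 := by
      intro h0
      exact u.ne_zero (Subtype.ext h0)
    have hβ0 : β ≠ 0 := by
      intro h0
      rw [h0, zero_pow hn.ne'] at hβu'
      exact hu0 hβu'.symm
    have hbc : β * (c : Qbar) ≠ 0 := mul_ne_zero hβ0 hc
    have h1 : (α / (β * (c : Qbar))) ^ n = 1 := by
      rw [div_pow, mul_pow, hβu', hα]
      exact div_self (mul_ne_zero hu0 (pow_ne_zero n hc))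
    have h2 : α / (β * (c : Qbar)) ∈ L := hRL _ (Or.inl h1)
    have h3 : α = α / (β * (c : Qbar)) * (β * (c : Qbar)) := by
      field_simp
    rw [h3]
    exact L.mul_mem h2 (L.mul_mem hβ (hKL c.2))

end Fermat.Agent.S17.NF
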