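import Mathlib
import Fermat.Prelude.Def_GroupCohomology_ContinuousUnramified
import Fermat.Agent.S55.P.Roots

/-!
# S17, block NF, package NF-1: a number field is unramified outside a finite set of primes
-/

set_option autoImplicit false

namespace Fermat.Agent.S17.NF

local notation "Qbar" => AlgebraicClosure ℚ
local notation "GQ" => (AlgebraicClosure ℚ ≃ₐ[ℚ] AlgebraicClosure ℚ)

open Polynomial

/-- every element of `Qbar` is algebraic over `ℤ`. -/
theorem nf1_isAlgebraic_int (b : Qbar) : IsAlgebraic ℤ b := by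
  have hgal := Fermat.Agent.Lib.FrobeniusExists.isGalois_algebraicClosure_rat
  have h1 : IsAlgebraic ℚ b := (IsGalois.integral ℚ b).isAlgebraic
  exact (IsFractionRing.isAlgebraic_iff ℤ ℚ Qbar).mpr h1

/-- a nonzero algebraic integer divides a nonzero natural number in the ring of algebraic
integers. -/
theorem nf1_exists_nat_multiple (δ : Qbar) : ∃ r : ℕ, r ≠ 0 ∧
    (IsIntegral ℤ δ → δ ≠ 0 → ∃ y : Qbar, IsIntegral ℤ y ∧ (r : Qbar) = δ * y) := by
  by_cases h : IsIntegral ℤ δ ∧ δ ≠ 0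
  · obtain ⟨hδ, h0⟩ := h
    let s : integralClosure ℤ Qbar := ⟨δ, hδ⟩
    have hs0 : s ≠ 0 := fun h => h0 (congrArg Subtype.val h)
    have halg : IsAlgebraic ℤ s := by
      have : IsIntegral ℤ s := by
        rw [← isIntegral_algebraMap_iff (B := Qbar) Subtype.val_injective]
        exact hδ
      exact this.isAlgebraic
    obtain ⟨r, hr0, y, hy⟩ := halg.exists_nonzero_dvd (mem_nonZeroDivisors_of_ne_zero hs0)
    have hy' : ((r : ℤ) : Qbar) = δ * (y : Qbar) := by
      have := congrArg Subtype.val hy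
      simpa using this
    rcases Int.natAbs_eq r with hr | hr
    · refine ⟨r.natAbs, Int.natAbs_ne_zero.mpr hr0, fun _ _ => ⟨y, y.2, ?_⟩⟩
      rw [← hy']
      conv_rhs => rw [hr]
      simp
    · refine ⟨r.natAbs, Int.natAbs_ne_zero.mpr hr0, fun _ _ => ⟨-y, y.2.neg, ?_⟩⟩
      rw [mul_neg, ← hy']
      conv_rhs => rw [hr]
      simp
  · exact ⟨1, one_ne_zero, fun h1 h2 => absurd ⟨h1, h2⟩ h⟩

/-- the case of a simple extension generated by an algebraic integer. -/
theorem nf1_adjoin_integral (θ : Qbar) (hθ : IsIntegral ℤ θ) :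
    ∃ S : Finset Nat.Primes, (IntermediateField.adjoin ℚ {θ}).IsUnramifiedOutside S := by
  classical
  have hgal := Fermat.Agent.Lib.FrobeniusExists.isGalois_algebraicClosure_rat
  obtain ⟨f, hf, hfθ⟩ := hθ
  choose r hr0 hr using nf1_exists_nat_multiple
  set R : Finset Qbar := (f.map (algebraMap ℤ Qbar)).roots.toFinset with hR
  set c : ℕ := ∏ θ' ∈ R, r (θ' - θ) with hc
  have hc0 : c ≠ 0 := Finset.prod_ne_zero_iff.mpr fun θ' _ => hr0 _
  have hmem : ∀ σ : GQ, σ θ ∈ R := by
    intro σ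
    rw [hR, Multiset.mem_toFinset, mem_roots (hf.map _).ne_zero, IsRoot.def, eval_map]
    have h1 := congrArg (σ : Qbar →+* Qbar) hfθ
    rw [map_zero, hom_eval₂] at h1
    have h2 : ((σ : Qbar →+* Qbar).comp (algebraMap ℤ Qbar)) = algebraMap ℤ Qbar :=
      RingHom.ext_int _ _
    rw [h2] at h1
    exact h1
  refine ⟨c.primeFactors.subtype Nat.Prime, ?_, fun q hq A hA σ hσ => ?_⟩
  · exact IntermediateField.adjoin.finiteDimensional (IsGalois.integral ℚ θ)
  · apply Fermat.Agent.S55.P.roots_mem_fixingSubgroup_adjoin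
    by_contra hne
    have hθ' : IsIntegral ℤ θ := ⟨f, hf, hfθ⟩
    have hθA : θ ∈ A := Fermat.Agent.Lib.FrobeniusExists.integralClosure_le A ⟨θ, hθ'⟩
    have h1 := ((Fermat.Agent.S55.P.mem_inertiaSubgroupIn_iff A σ).mp hσ).2 θ hθA
    obtain ⟨y, hy, hry⟩ := hr (σ θ - θ) ((map_isIntegral_int σ hθ').sub hθ') (sub_ne_zero.mpr hne)
    have hyA : y ∈ A := Fermat.Agent.Lib.FrobeniusExists.integralClosure_le A ⟨y, hy⟩
    have hqr : ¬ (q : ℕ) ∣ r (σ θ - θ) := by
      intro hd
      apply hq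
      refine Finset.mem_subtype.mpr ?_
      rw [Nat.mem_primeFactors]
      exact ⟨q.2, hd.trans (Finset.dvd_prod_of_mem (fun θ' => r (θ' - θ)) (hmem σ)), hc0⟩
    apply Fermat.Agent.S55.P.roots_natCast_not_mem_nonunits q.2 hA hqr
    rw [hry, ValuationSubring.mem_nonunits_iff, map_mul]
    exact (mul_le_of_le_one_right' ((A.valuation_le_one_iff _).mpr hyA)).trans_lt
      (A.mem_nonunits_iff.mp h1)

/-- the case of a simple extension. -/
theorem nf1_adjoin_simple (b : Qbar) :
    ∃ S : Finset Nat.Primes, (IntermediateField.adjoin ℚ {b}).IsUnramifiedOutside S := by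
  obtain ⟨n, hn0, hn⟩ := (nf1_isAlgebraic_int b).exists_integral_multiple
  obtain ⟨S, hS⟩ := nf1_adjoin_integral (n • b) hn
  refine ⟨S, hS.of_le ?_⟩
  rw [IntermediateField.adjoin_simple_le_iff]
  have h1 : n • b ∈ IntermediateField.adjoin ℚ {n • b} :=
    IntermediateField.mem_adjoin_simple_self ℚ _
  have h2 : (n : Qbar) ∈ IntermediateField.adjoin ℚ {n • b} := intCast_mem _ n
  have hn0' : (n : Qbar) ≠ 0 := by exact_mod_cast hn0
  have h3 : b = (n : Qbar)⁻¹ * (n • b) := by
    rw [zsmul_eq_mul]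
    field_simp
  have h4 : (n : Qbar)⁻¹ * (n • b) ∈ IntermediateField.adjoin ℚ {n • b} :=
    mul_mem (inv_mem h2) h1
  rwa [← h3] at h4

/-- **NF-1.** -/
theorem exists_isUnramifiedOutside (K : IntermediateField ℚ Qbar) [FiniteDimensional ℚ K] :
    ∃ S : Finset Nat.Primes, K.IsUnramifiedOutside S := by
  classical
  have hfg : K.FG := by
    apply IntermediateField.fg_of_fg_toSubalgebra
    apply Subalgebra.fg_of_fg_toSubmodule
    exact (Submodule.fg_top _).mp (Module.Finite.fg_top (R := ℚ) (M := K))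
  refine IntermediateField.induction_on_adjoin_fg
    (fun K => ∃ S : Finset Nat.Primes, K.IsUnramifiedOutside S) ?_ ?_ K hfg
  · exact ⟨∅, IntermediateField.isUnramifiedOutside_bot ∅⟩
  · rintro F x ⟨S, hS⟩
    obtain ⟨S', hS'⟩ := nf1_adjoin_simple x
    refine ⟨S ∪ S', ?_⟩
    rw [IntermediateField.restrictScalars_adjoin_eq_sup]
    exact (hS.mono Finset.subset_union_left).sup (hS'.mono Finset.subset_union_right)

end Fermat.Agent.S17.NF
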