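import Mathlib

/-!
# S17, block NF, package NF-2: Hilbert 90 / Lagrange resolvent for characters of `G_K`
-/

set_option autoImplicit false

namespace Fermat.Agent.S17.NF

local notation "Qbar" => AlgebraicClosure ℚ
local notation "GQ" => (AlgebraicClosure ℚ ≃ₐ[ℚ] AlgebraicClosure ℚ)

/-- restriction of an element of `G_K` to `E`. -/
noncomputable def nf2_res (K E : IntermediateField ℚ Qbar) (σ : K.fixingSubgroup) : E →ₐ[ℚ] Qbar :=
  ((σ : GQ) : Qbar →ₐ[ℚ] Qbar).comp E.val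

theorem nf2_res_apply (K E : IntermediateField ℚ Qbar) (σ : K.fixingSubgroup) (x : E) :
    nf2_res K E σ x = (σ : GQ) (x : Qbar) := rfl

theorem nf2_wd (K E : IntermediateField ℚ Qbar) (ψ : K.fixingSubgroup →* Qbarˣ)
    (hE : ∀ σ : K.fixingSubgroup, (σ : GQ) ∈ E.fixingSubgroup → ψ σ = 1)
    {σ σ' : K.fixingSubgroup} (h : nf2_res K E σ = nf2_res K E σ') : ψ σ = ψ σ' := by
  have h1 : ψ (σ⁻¹ * σ') = 1 := by
    apply hE
    rw [IntermediateField.mem_fixingSubgroup_iff]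
    intro x hx
    have h2 : (σ : GQ) x = (σ' : GQ) x := DFunLike.congr_fun h (⟨x, hx⟩ : E)
    change (σ : GQ)⁻¹ ((σ' : GQ) x) = x
    rw [← h2]
    exact (σ : GQ).symm_apply_apply x
  rw [map_mul, map_inv, inv_mul_eq_one] at h1
  exact h1

/-- the coefficients of the resolvent. -/
noncomputable def nf2_c (K E : IntermediateField ℚ Qbar) (ψ : K.fixingSubgroup →* Qbarˣ)
    (τ : E →ₐ[ℚ] Qbar) : Qbar :=
  open Classical in
  if h : ∃ σ : K.fixingSubgroup, nf2_res K E σ = τ then (((ψ h.choose)⁻¹ : Qbarˣ) : Qbar) else 0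

theorem nf2_c_res (K E : IntermediateField ℚ Qbar) (ψ : K.fixingSubgroup →* Qbarˣ)
    (hE : ∀ σ : K.fixingSubgroup, (σ : GQ) ∈ E.fixingSubgroup → ψ σ = 1)
    (σ : K.fixingSubgroup) : nf2_c K E ψ (nf2_res K E σ) = (((ψ σ)⁻¹ : Qbarˣ) : Qbar) := by
  have h : ∃ σ' : K.fixingSubgroup, nf2_res K E σ' = nf2_res K E σ := ⟨σ, rfl⟩
  unfold nf2_c
  rw [dif_pos h, nf2_wd K E ψ hE h.choose_spec]

theorem nf2_c_of_not (K E : IntermediateField ℚ Qbar) (ψ : K.fixingSubgroup →* Qbarˣ)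
    {τ : E →ₐ[ℚ] Qbar} (h : ¬ ∃ σ : K.fixingSubgroup, nf2_res K E σ = τ) :
    nf2_c K E ψ τ = 0 := by
  unfold nf2_c
  rw [dif_neg h]

theorem nf2_c_comp (K E : IntermediateField ℚ Qbar) (ψ : K.fixingSubgroup →* Qbarˣ)
    (hE : ∀ σ : K.fixingSubgroup, (σ : GQ) ∈ E.fixingSubgroup → ψ σ = 1)
    (ρ : K.fixingSubgroup) (τ : E →ₐ[ℚ] Qbar) :
    ((ψ ρ : Qbarˣ) : Qbar) * nf2_c K E ψ (((ρ : GQ) : Qbar →ₐ[ℚ] Qbar).comp τ) = nf2_c K E ψ τ := by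
  by_cases h : ∃ σ : K.fixingSubgroup, nf2_res K E σ = τ
  · obtain ⟨σ, rfl⟩ := h
    have h1 : ((ρ : GQ) : Qbar →ₐ[ℚ] Qbar).comp (nf2_res K E σ) = nf2_res K E (ρ * σ) := by
      ext x; rfl
    rw [h1, nf2_c_res K E ψ hE, nf2_c_res K E ψ hE, map_mul, mul_inv, Units.val_mul,
      ← mul_assoc, ← Units.val_mul, mul_inv_cancel, Units.val_one, one_mul]
  · have h' : ¬ ∃ σ : K.fixingSubgroup,
        nf2_res K E σ = ((ρ : GQ) : Qbar →ₐ[ℚ] Qbar).comp τ := by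
      rintro ⟨σ, hσ⟩
      refine h ⟨ρ⁻¹ * σ, ?_⟩
      ext x
      have h2 : (σ : GQ) (x : Qbar) = (ρ : GQ) (τ x) := DFunLike.congr_fun hσ x
      change (ρ : GQ)⁻¹ ((σ : GQ) (x : Qbar)) = τ x
      rw [h2]
      exact (ρ : GQ).symm_apply_apply _
    rw [nf2_c_of_not K E ψ h, nf2_c_of_not K E ψ h', mul_zero]

theorem nf2_c_mem (K E : IntermediateField ℚ Qbar) (ψ : K.fixingSubgroup →* Qbarˣ)
    (hψK : ∀ σ, ((ψ σ : Qbarˣ) : Qbar) ∈ K) (τ : E →ₐ[ℚ] Qbar) : nf2_c K E ψ τ ∈ K := by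
  unfold nf2_c
  split_ifs with h
  · rw [Units.val_inv_eq_inv_val]
    exact K.inv_mem (hψK _)
  · exact K.zero_mem

/-- postcomposition with `ρ` as a permutation of the embeddings. -/
noncomputable def nf2_perm (E : IntermediateField ℚ Qbar) (ρ : GQ) :
    (E →ₐ[ℚ] Qbar) ≃ (E →ₐ[ℚ] Qbar) where
  toFun τ := (ρ : Qbar →ₐ[ℚ] Qbar).comp τ
  invFun τ := (ρ.symm : Qbar →ₐ[ℚ] Qbar).comp τ
  left_inv τ := by ext x; exact ρ.symm_apply_apply _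
  right_inv τ := by ext x; exact ρ.apply_symm_apply _

/-- **NF-2.** A character of `G_K` with values in `K` and open kernel is `σ ↦ σ α / α`. -/
theorem exists_resolvent (K : IntermediateField ℚ Qbar) (ψ : K.fixingSubgroup →* Qbarˣ)
    (hψK : ∀ σ, ((ψ σ : Qbarˣ) : Qbar) ∈ K)
    (hopen : ∃ E : IntermediateField ℚ Qbar, FiniteDimensional ℚ E ∧
      ∀ σ : K.fixingSubgroup, (σ : GQ) ∈ E.fixingSubgroup → ψ σ = 1) :
    ∃ α : Qbar, α ≠ 0 ∧ ∀ σ : K.fixingSubgroup, (σ : GQ) α = ((ψ σ : Qbarˣ) : Qbar) * α := by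
  obtain ⟨E, hfd, hE⟩ := hopen
  -- non-vanishing
  have hne : ∃ x : E, ∑ τ : E →ₐ[ℚ] Qbar, nf2_c K E ψ τ * τ x ≠ 0 := by
    by_contra hcon
    push Not at hcon
    have hli := linearIndependent_algHom_toLinearMap ℚ E Qbar
    rw [Fintype.linearIndependent_iff] at hli
    have h0 : ∑ τ : E →ₐ[ℚ] Qbar, nf2_c K E ψ τ • (τ.toLinearMap : E →ₗ[ℚ] Qbar) = 0 := by
      ext x
      simpa [LinearMap.sum_apply] using hcon x
    have h1 := hli (nf2_c K E ψ) h0 (nf2_res K E 1)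
    rw [nf2_c_res K E ψ hE, map_one, inv_one, Units.val_one] at h1
    exact one_ne_zero h1
  obtain ⟨x, hx⟩ := hne
  refine ⟨_, hx, fun ρ => ?_⟩
  have hperm : ∑ τ : E →ₐ[ℚ] Qbar, nf2_c K E ψ τ * τ x
      = ∑ τ : E →ₐ[ℚ] Qbar, nf2_c K E ψ (nf2_perm E (ρ : GQ) τ) * (nf2_perm E (ρ : GQ) τ) x :=
    ((nf2_perm E (ρ : GQ)).sum_comp (fun τ => nf2_c K E ψ τ * τ x)).symm
  conv_rhs => rw [hperm]
  rw [map_sum, Finset.mul_sum]
  refine Finset.sum_congr rfl fun τ _ => ?_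
  have hfix : (ρ : GQ) (nf2_c K E ψ τ) = nf2_c K E ψ τ :=
    (IntermediateField.mem_fixingSubgroup_iff K (ρ : GQ)).mp ρ.2 _ (nf2_c_mem K E ψ hψK τ)
  rw [map_mul, hfix, ← nf2_c_comp K E ψ hE ρ τ, mul_assoc]
  rfl

end Fermat.Agent.S17.NF
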