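import Mathlib
import Fermat.Agent.S55.H.TUnit
import Fermat.Agent.S55.H.U.TClass

/-!
# S17, block NF, package NF-4: `a = u * c ^ n` with `u` a `T`-unit
-/

set_option autoImplicit false

namespace Fermat.Agent.S17.NF

open NumberField IsDedekindDomain Fermat.Agent.S55.H

/-- a nonzero element is a unit at almost all primes. -/
theorem nf4_finite_valuationOfNeZero_ne_one (k : Type*) [Field k] [NumberField k] (a : kˣ) :
    {v : HeightOneSpectrum (𝓞 k) | v.valuationOfNeZero a ≠ 1}.Finite := by
  refine ((HeightOneSpectrum.Support.finite (𝓞 k) (a : k)).union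
    (HeightOneSpectrum.Support.finite (𝓞 k) ((a⁻¹ : kˣ) : k))).subset ?_
  intro v hv
  have hv' : v.valuation k (a : k) ≠ 1 := by
    intro h1
    apply hv
    rw [← WithZero.coe_inj, HeightOneSpectrum.valuationOfNeZero_eq, h1]
    rfl
  rcases lt_or_gt_of_ne hv' with h | h
  · right
    change 1 < v.valuation k ((a⁻¹ : kˣ) : k)
    rw [Units.val_inv_eq_inv_val, map_inv₀]
    exact (one_lt_inv₀ (zero_lt_iff.2 ((Valuation.ne_zero_iff _).2 a.ne_zero))).2 h
  · left
    exact h

/-- **NF-4.** -/
theorem exists_tunit_mul_pow (k : Type*) [Field k] [NumberField k]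
    (T : Finset (HeightOneSpectrum (𝓞 k))) (hT : TPrincipal k (T : Set (HeightOneSpectrum (𝓞 k))))
    (n : ℕ) (hn : 0 < n) (a : kˣ)
    (h : ∀ v : HeightOneSpectrum (𝓞 k), v ∉ T →
      ∃ c : k, c ≠ 0 ∧ v.valuation k (a : k) = (v.valuation k c) ^ n) :
    ∃ u ∈ TUnit k T, ∃ c : kˣ, a = u * c ^ n := by
  classical
  -- local roots as units
  have h' : ∀ v : HeightOneSpectrum (𝓞 k), ∃ m : ℤ, v ∉ T →
      v.valuationOfNeZero a = Multiplicative.ofAdd ((n : ℤ) * m) := by
    intro v
    by_cases hv : v ∈ T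
    · exact ⟨0, fun h0 => absurd hv h0⟩
    · obtain ⟨c, hc0, hc⟩ := h v hv
      refine ⟨Multiplicative.toAdd (v.valuationOfNeZero (Units.mk0 c hc0)), fun _ => ?_⟩
      have h1 : v.valuationOfNeZero a = (v.valuationOfNeZero (Units.mk0 c hc0)) ^ n := by
        rw [← WithZero.coe_inj, WithZero.coe_pow, HeightOneSpectrum.valuationOfNeZero_eq,
          HeightOneSpectrum.valuationOfNeZero_eq]
        exact hc
      rw [h1]
      apply Multiplicative.toAdd.injective
      simp [mul_comm]
  choose m hm using h'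
  have hfin := nf4_finite_valuationOfNeZero_ne_one k a
  let e : HeightOneSpectrum (𝓞 k) →₀ ℤ :=
    Finsupp.onFinset hfin.toFinset (fun v => if v ∈ T then 0 else m v) (by
      intro v hv
      rw [Set.Finite.mem_toFinset]
      by_cases hvT : v ∈ T
      · simp [hvT] at hv
      · rw [if_neg hvT] at hv
        change v.valuationOfNeZero a ≠ 1
        rw [hm v hvT]
        intro h1
        have h2 : (n : ℤ) * m v = 0 := Multiplicative.ofAdd.injective h1
        rcases mul_eq_zero.1 h2 with h3 | h3
        · exact hn.ne' (by exact_mod_cast h3)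
        · exact hv h3)
  obtain ⟨c, hc⟩ := hT e
  refine ⟨a * (c ^ n)⁻¹, ?_, c, by group⟩
  rw [mem_TUnit_iff]
  intro v hv
  have hv' : v ∉ (T : Set (HeightOneSpectrum (𝓞 k))) := by simpa using hv
  have he : e v = m v := by
    change (if v ∈ T then 0 else m v) = m v
    rw [if_neg hv]
  have h1 : v.valuationOfNeZero (a * (c ^ n)⁻¹) = 1 := by
    rw [map_mul, map_inv, map_pow, hc v hv', hm v hv, he]
    apply Multiplicative.toAdd.injective
    simp [mul_comm]
  rw [← HeightOneSpectrum.valuationOfNeZero_eq, h1]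
  rfl

end Fermat.Agent.S17.NF

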