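import Mathlib
import Fermat.Agent.S55.P.Val
import Fermat.Agent.S55.P.ValueGroup

/-!
# S17, block NF, package NF-3: `n ∣ v(a)` if `a = α ^ n` with `α` fixed by inertia
-/

set_option autoImplicit false

namespace Fermat.Agent.S17.NF

open NumberField IsDedekindDomain Fermat.Agent.S55.P

local notation "Qbar" => AlgebraicClosure ℚ
local notation "GQ" => (AlgebraicClosure ℚ ≃ₐ[ℚ] AlgebraicClosure ℚ)

/-- units at `A` are stable under powers. -/
theorem nf3_isUnitAt_pow {A : ValuationSubring Qbar} {x : Qbar} (hx : IsUnitAt A x) (n : ℕ) :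
    IsUnitAt A (x ^ n) := by
  induction n with
  | zero =>
    rw [pow_zero]
    exact ⟨A.one_mem, by rw [inv_one]; exact A.one_mem, one_ne_zero⟩
  | succ n ih =>
    rw [pow_succ]
    exact ih.mul hx

/-- **NF-3.** -/
theorem exists_valuation_eq_pow (K : IntermediateField ℚ Qbar) [NumberField K] (n : ℕ)
    (v : HeightOneSpectrum (𝓞 K)) (A : ValuationSubring Qbar) (hv : v.asIdeal = primeUnder K A)
    {q : ℕ} (hq : q.Prime) (hA : A.LiesOverPrime q) (a : K) (α : Qbar) (hα : α ≠ 0)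
    (ha : (a : Qbar) = α ^ n) (hfix : ∀ σ ∈ A.inertiaSubgroupIn ℚ, σ α = α) :
    ∃ c : K, c ≠ 0 ∧ v.valuation K a = (v.valuation K c) ^ n := by
  obtain ⟨m, hm⟩ := exists_zpow_mul_isUnitAt A hq hA hα hfix
  have hq0 : (q : K) ≠ 0 := Nat.cast_ne_zero.2 hq.ne_zero
  have hc0 : (q : K) ^ m ≠ 0 := zpow_ne_zero _ hq0
  refine ⟨(q : K) ^ m, hc0, ?_⟩
  have h1 : v.valuation K (a * (((q : K) ^ m) ^ n)⁻¹) = 1 := by
    rw [valuation_eq_one_iff K v A hv]
    have h2 : ((a * (((q : K) ^ m) ^ n)⁻¹ : K) : Qbar) = (α * (q : Qbar) ^ (-m)) ^ n := by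
      have h3 : (((q : K) ^ m : K) : Qbar) = (q : Qbar) ^ m := by
        have := map_zpow₀ (algebraMap K Qbar) (q : K) m
        rw [map_natCast] at this
        exact this
      push_cast
      rw [ha, mul_pow, zpow_neg, inv_pow, h3]
    rw [h2]
    exact nf3_isUnitAt_pow hm n
  rw [map_mul, map_inv₀, map_pow] at h1
  have h3 : (v.valuation K ((q : K) ^ m)) ^ n ≠ 0 :=
    pow_ne_zero _ ((Valuation.ne_zero_iff _).2 hc0)
  exact (mul_inv_eq_one₀ h3).1 h1

end Fermat.Agent.S17.NF
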