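import Mathlib
import Fermat.Agent.S55.P.Unram
import Fermat.Agent.S17.NF.Ram
import Fermat.Agent.S17.NF.Resolvent
import Fermat.Agent.S17.NF.ValDvd
import Fermat.Agent.S17.NF.TUnitPow
import Fermat.Agent.S17.NF.KummerField
import Fermat.Agent.S17.NF.CharSep

/-!
# S17, block NF: finiteness of the maximal abelian extension of exponent `n` of a number field
unramified outside a finite set of primes (assembly + exported contract).
-/

set_option autoImplicit false

namespace Fermat.Agent.S17.NF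

open NumberField IsDedekindDomain Fermat.Agent.S55.P Fermat.Agent.S55.H ExtCitation
open scoped Pointwise

local notation "Qbar" => AlgebraicClosure ℚ
local notation "GQ" => (AlgebraicClosure ℚ ≃ₐ[ℚ] AlgebraicClosure ℚ)

theorem mem_of_fixed (K : IntermediateField ℚ Qbar) (x : Qbar)
    (h : ∀ σ ∈ K.fixingSubgroup, σ x = x) : x ∈ K := by
  have hgal : IsGalois ℚ Qbar := Fermat.Agent.Lib.FrobeniusExists.isGalois_algebraicClosure_rat
  rw [← InfiniteGalois.fixedField_fixingSubgroup K, IntermediateField.mem_fixedField_iff]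
  exact h

/-- **Contract, subgroup form.**  There is a number field `L ⊇ K` such that `G_L` is contained in
every open subgroup `H ≤ G_K` with `G_K / H` abelian of exponent `n`, unramified outside `T`. -/
theorem exists_level (K : IntermediateField ℚ Qbar) [FiniteDimensional ℚ K] (n : ℕ) (hn : 0 < n)
    (T : Finset ℕ) :
    ∃ L : IntermediateField ℚ Qbar, FiniteDimensional ℚ L ∧ K ≤ L ∧
      ∀ H : Subgroup GQ,
        (∃ E : IntermediateField ℚ Qbar, FiniteDimensional ℚ E ∧ E.fixingSubgroup ≤ H) →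
        (∀ σ ∈ K.fixingSubgroup, ∀ τ ∈ K.fixingSubgroup, σ * τ * σ⁻¹ * τ⁻¹ ∈ H) →
        (∀ σ ∈ K.fixingSubgroup, σ ^ n ∈ H) →
        (∀ ℓ : ℕ, ℓ.Prime → ℓ ∉ T → ∀ A : ValuationSubring Qbar, A.LiesOverPrime ℓ →
          ∀ σ ∈ A.inertiaSubgroupIn ℚ, σ ∈ K.fixingSubgroup → σ ∈ H) →
        L.fixingSubgroup ≤ H := by
  classical
  have hgal : IsGalois ℚ Qbar := Fermat.Agent.Lib.FrobeniusExists.isGalois_algebraicClosure_rat
  have hn0 : NeZero n := ⟨hn.ne'⟩
  obtain ⟨ζ, hζ⟩ : ∃ ζ : Qbar, IsPrimitiveRoot ζ n :=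
    HasEnoughRootsOfUnity.exists_primitiveRoot Qbar n
  let K1 : IntermediateField ℚ Qbar := K ⊔ IntermediateField.adjoin ℚ {ζ}
  have hfdζ : FiniteDimensional ℚ (IntermediateField.adjoin ℚ {ζ}) :=
    IntermediateField.adjoin.finiteDimensional (IsGalois.integral ℚ ζ)
  have hfd1 : FiniteDimensional ℚ K1 := IntermediateField.finiteDimensional_sup K _
  have hnf : NumberField K1 := { to_charZero := inferInstance, to_finiteDimensional := hfd1 }
  have hKK1 : K ≤ K1 := le_sup_left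
  have hζK1 : ζ ∈ K1 :=
    (le_sup_right : IntermediateField.adjoin ℚ {ζ} ≤ K1) (IntermediateField.mem_adjoin_simple_self ℚ ζ)
  obtain ⟨S1, hS1⟩ := exists_isUnramifiedOutside K1
  obtain ⟨T0, hT0fin, hT0⟩ := exists_tprincipal K1
  let Tn : Finset ℕ := (T ∪ S1.image (fun q : Nat.Primes => (q : ℕ))).filter Nat.Prime
  let TK : Set (HeightOneSpectrum (𝓞 K1)) :=
    ⋃ q ∈ Tn, {v | v.asIdeal ∣ Ideal.span {(q : 𝓞 K1)}}
  have hTKfin : TK.Finite := by
    refine Set.Finite.biUnion Tn.finite_toSet (fun q hq => Ideal.finite_factors ?_)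
    have hq' : q.Prime := (Finset.mem_filter.mp hq).2
    intro h0
    rw [Ideal.zero_eq_bot, Ideal.span_singleton_eq_bot] at h0
    exact hq'.ne_zero (by exact_mod_cast h0)
  let T2 : Finset (HeightOneSpectrum (𝓞 K1)) := (hTKfin.union hT0fin).toFinset
  have hT2 : TPrincipal K1 (T2 : Set (HeightOneSpectrum (𝓞 K1))) := by
    apply hT0
    intro v hv
    simp only [T2, Set.Finite.coe_toFinset]
    exact Or.inr hv
  obtain ⟨L, hLfd, hKL, hL⟩ := exists_kummer_field K1 T2 n hn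
  refine ⟨L, hLfd, hKK1.trans hKL, ?_⟩
  rintro H ⟨E, hEfd, hEH⟩ hcomm hpow hunr σ hσL
  by_contra hσH
  have hσ1 : σ ∈ K1.fixingSubgroup := IntermediateField.fixingSubgroup_antitone hKL hσL
  have hK1K : K1.fixingSubgroup ≤ K.fixingSubgroup := IntermediateField.fixingSubgroup_antitone hKK1
  have hEidx : E.fixingSubgroup.FiniteIndex := by
    refine ⟨?_⟩
    rw [index_fixingSubgroup]
    exact Module.finrank_pos.ne'
  have hHidx : H.FiniteIndex := Subgroup.finiteIndex_of_le hEH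
  let H1 : Subgroup K1.fixingSubgroup := H.subgroupOf K1.fixingSubgroup
  have hH1idx : H1.FiniteIndex := inferInstance
  obtain ⟨ψ, hψH, hψn, hψσ⟩ := exists_char_ne_one Qbar H1 n
    (fun a b => hcomm a (hK1K a.2) b (hK1K b.2)) (fun a => hpow a (hK1K a.2)) ⟨σ, hσ1⟩ hσH
  have hψK : ∀ τ, ((ψ τ : Qbarˣ) : Qbar) ∈ K1 := by
    intro τ
    have h1 : ((ψ τ : Qbarˣ) : Qbar) ^ n = 1 := by
      rw [← Units.val_pow_eq_pow_val, hψn, Units.val_one]
    obtain ⟨i, _, hi⟩ := hζ.eq_pow_of_pow_eq_one h1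
    rw [← hi]
    exact pow_mem hζK1 i
  obtain ⟨α, hα0, hα⟩ := exists_resolvent K1 ψ hψK
    ⟨E, hEfd, fun τ hτ => hψH τ (hEH hτ)⟩
  have haK : α ^ n ∈ K1 := mem_of_fixed K1 _ (fun τ hτ => by
    rw [map_pow, hα ⟨τ, hτ⟩, mul_pow, ← Units.val_pow_eq_pow_val, hψn, Units.val_one, one_mul])
  let a : K1 := ⟨α ^ n, haK⟩
  have ha0 : a ≠ 0 := fun h => pow_ne_zero n hα0 (congrArg Subtype.val h)
  have hval : ∀ v : HeightOneSpectrum (𝓞 K1), v ∉ T2 →
      ∃ c : K1, c ≠ 0 ∧ v.valuation K1 ((Units.mk0 a ha0 : K1ˣ) : K1) = (v.valuation K1 c) ^ n := by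
    intro v hv
    obtain ⟨q, hq, g, hg⟩ := exists_place_over K1 v
    have hA : (g • padicPlace q).LiesOverPrime q :=
      (liesOverPrime_smul_iff _ g q).mpr (padicPlace_liesOverPrime q)
    have hqTn : q ∉ Tn := by
      intro h
      apply hv
      simp only [T2, Set.Finite.mem_toFinset]
      refine Or.inl (Set.mem_biUnion h ?_)
      show v.asIdeal ∣ _
      rw [Ideal.dvd_span_singleton, hg]
      exact natCast_mem_primeUnder hA
    have hqT : q ∉ T := fun h =>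
      hqTn (Finset.mem_filter.mpr ⟨Finset.mem_union_left _ h, hq.out⟩)
    have hqS : (⟨q, hq.out⟩ : Nat.Primes) ∉ S1 := fun h =>
      hqTn (Finset.mem_filter.mpr ⟨Finset.mem_union_right _
        (Finset.mem_image_of_mem (fun q : Nat.Primes => (q : ℕ)) h), hq.out⟩)
    refine exists_valuation_eq_pow K1 n v _ hg hq.out hA a α hα0 rfl ?_
    intro τ hτ
    have hτ1 : τ ∈ K1.fixingSubgroup := hS1.2 ⟨q, hq.out⟩ hqS _ hA hτ
    have hτH : τ ∈ H := hunr q hq.out hqT _ hA τ hτ (hK1K hτ1)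
    have h3 := hα ⟨τ, hτ1⟩
    rw [hψH ⟨τ, hτ1⟩ hτH, Units.val_one, one_mul] at h3
    exact h3
  obtain ⟨u, hu, c, huc⟩ := exists_tunit_mul_pow K1 T2 hT2 n hn (Units.mk0 a ha0) hval
  have hαL : α ∈ L := hL u hu (c : K1) α (by
    have h4 := congrArg (fun x : K1ˣ => ((x : K1) : Qbar)) huc
    simpa [a] using h4)
  have h1 : σ α = α := (IntermediateField.mem_fixingSubgroup_iff _ _).1 hσL α hαL
  have h2 := hα ⟨σ, hσ1⟩
  apply hψσ
  apply Units.ext
  rw [Units.val_one]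
  have h5 : ((ψ ⟨σ, hσ1⟩ : Qbarˣ) : Qbar) * α = 1 * α := by
    rw [← h2, one_mul]
    exact h1
  exact mul_right_cancel₀ hα0 h5

/-- the Kummer cocycle `σ ↦ σ Q - Q` as a homomorphism on `G_K`. -/
theorem kummer_hom {G J : Type*} [Group G] [AddCommGroup J] [DistribMulAction G J] (n : ℕ)
    (htors : ∀ R : J, n • R = 0 → ∀ σ : G, σ • R = R) (Q : J)
    (hQ : ∀ σ : G, σ • (n • Q) = n • Q) :
    ∃ c : G →* Multiplicative J, (∀ σ, c σ = Multiplicative.ofAdd (σ • Q - Q)) ∧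
      ∀ σ, c σ ^ n = 1 := by
  have hn : ∀ σ : G, n • (σ • Q - Q) = 0 := by
    intro σ
    rw [smul_sub, ← smul_comm σ n Q, hQ σ, sub_self]
  refine ⟨{ toFun := fun σ => Multiplicative.ofAdd (σ • Q - Q)
            map_one' := by simp
            map_mul' := fun σ τ => ?_ }, fun σ => rfl, fun σ => ?_⟩
  · rw [← ofAdd_add]
    congr 1
    have h1 := htors _ (hn τ) σ
    rw [smul_sub, ← mul_smul] at h1
    rw [← h1]
    abel
  · change Multiplicative.ofAdd (σ • Q - Q) ^ n = 1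
    rw [← ofAdd_nsmul, hn σ, ofAdd_zero]

/-- **Contract, division point form** (the form used in the weak Mordell-Weil theorem).
`J` any abelian group with an action of `G_ℚ`; `K` a number field over which `J[n]` is rational.
Then there is ONE number field `L ⊇ K`, Galois over `ℚ`, over which every `Q` with `n • Q`
`K`-rational, smooth stabiliser, and unramified outside `T`, is rational. -/
theorem exists_level_division (K : IntermediateField ℚ Qbar) [FiniteDimensional ℚ K] (n : ℕ)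
    (hn : 0 < n) (T : Finset ℕ) :
    ∃ L : IntermediateField ℚ Qbar, FiniteDimensional ℚ L ∧ IsGalois ℚ L ∧ K ≤ L ∧
      ∀ (J : Type*) [AddCommGroup J] [DistribMulAction GQ J],
        (∀ R : J, n • R = 0 → ∀ σ ∈ K.fixingSubgroup, σ • R = R) →
        ∀ Q : J, (∀ σ ∈ K.fixingSubgroup, σ • (n • Q) = n • Q) →
        (∃ E : IntermediateField ℚ Qbar, FiniteDimensional ℚ E ∧
          ∀ σ ∈ E.fixingSubgroup, σ • Q = Q) →
        (∀ ℓ : ℕ, ℓ.Prime → ℓ ∉ T → ∀ A : ValuationSubring Qbar, A.LiesOverPrime ℓ →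
          ∀ σ ∈ A.inertiaSubgroupIn ℚ, σ ∈ K.fixingSubgroup → σ • Q = Q) →
        ∀ σ ∈ L.fixingSubgroup, σ • Q = Q := by
  have hgal : IsGalois ℚ Qbar := Fermat.Agent.Lib.FrobeniusExists.isGalois_algebraicClosure_rat
  have hnorQ : Normal ℚ Qbar := hgal.to_normal
  obtain ⟨L0, hL0fd, hKL0, hL0⟩ := exists_level K n hn T
  have hle : L0 ≤ IntermediateField.normalClosure ℚ L0 Qbar := IntermediateField.le_normalClosure _
  have hnor : Normal ℚ (IntermediateField.normalClosure ℚ L0 Qbar) := normalClosure.normal ℚ _ Qbar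
  refine ⟨IntermediateField.normalClosure ℚ L0 Qbar, normalClosure.is_finiteDimensional ℚ _ Qbar,
    isGalois_iff.mpr ⟨inferInstance, hnor⟩, hKL0.trans hle, ?_⟩
  intro J _ _ htors Q hQ hE hunr σ hσ
  obtain ⟨c, hc, hcn⟩ := kummer_hom (G := K.fixingSubgroup) (J := J) n
    (fun R hR σ => htors R hR σ σ.2) Q (fun σ => hQ σ σ.2)
  have hfix : ∀ σ : K.fixingSubgroup, c σ = 1 → (σ : GQ) • Q = Q := by
    intro σ h
    rw [hc] at h
    have h2 : (σ • Q - Q : J) = 0 := h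
    exact sub_eq_zero.mp h2
  obtain ⟨E, hEfd, hEQ⟩ := hE
  have h1 : E.fixingSubgroup ≤ MulAction.stabilizer GQ Q := fun τ hτ =>
    MulAction.mem_stabilizer_iff.mpr (hEQ τ hτ)
  have h2 : ∀ a ∈ K.fixingSubgroup, ∀ b ∈ K.fixingSubgroup,
      a * b * a⁻¹ * b⁻¹ ∈ MulAction.stabilizer GQ Q := by
    intro a ha b hb
    rw [MulAction.mem_stabilizer_iff]
    have h := hfix ((⟨a, ha⟩ : K.fixingSubgroup) * ⟨b, hb⟩ * ⟨a, ha⟩⁻¹ * ⟨b, hb⟩⁻¹) (by
      rw [map_mul, map_mul, map_mul, map_inv, map_inv]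
      rw [mul_comm (c ⟨a, ha⟩), mul_inv_cancel_right, mul_inv_cancel])
    exact h
  have h3 : ∀ a ∈ K.fixingSubgroup, a ^ n ∈ MulAction.stabilizer GQ Q := by
    intro a ha
    rw [MulAction.mem_stabilizer_iff]
    have h := hfix ((⟨a, ha⟩ : K.fixingSubgroup) ^ n) (by rw [map_pow, hcn])
    exact h
  have h4 : ∀ ℓ : ℕ, ℓ.Prime → ℓ ∉ T → ∀ A : ValuationSubring Qbar, A.LiesOverPrime ℓ →
      ∀ σ ∈ A.inertiaSubgroupIn ℚ, σ ∈ K.fixingSubgroup → σ ∈ MulAction.stabilizer GQ Q :=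
    fun ℓ hℓ hℓT A hA τ hτ hτK => MulAction.mem_stabilizer_iff.mpr (hunr ℓ hℓ hℓT A hA τ hτ hτK)
  exact MulAction.mem_stabilizer_iff.mp (hL0 (MulAction.stabilizer GQ Q) ⟨E, hEfd, h1⟩ h2 h3 h4
    (IntermediateField.fixingSubgroup_antitone hle hσ))

end Fermat.Agent.S17.NF
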