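import Mathlib
import Fermat.Agent.S17.NF.Main

/-!
# S17, block NF: the abstract weak Mordell-Weil theorem

`J` an abelian group with an action of `G_ℚ` such that: `J[n]` is finite, `J` is `n`-divisible,
every point has an open stabiliser, and the `n`-division points of rational points are unramified
outside a finite set `T`.  Then `J^{G_ℚ} / n J^{G_ℚ}` is finite.
-/

set_option autoImplicit false

namespace Fermat.Agent.S17.NF

local notation "Qbar" => AlgebraicClosure ℚ
local notation "GQ" => (AlgebraicClosure ℚ ≃ₐ[ℚ] AlgebraicClosure ℚ)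

/-- a finite set of points with open stabilisers is rational over one number field. -/
theorem exists_field_of_finite {J : Type*} [AddCommGroup J] [DistribMulAction GQ J]
    (hsmooth : ∀ Q : J, ∃ E : IntermediateField ℚ Qbar, FiniteDimensional ℚ E ∧
      ∀ σ ∈ E.fixingSubgroup, σ • Q = Q) (s : Set J) (hs : s.Finite) :
    ∃ K : IntermediateField ℚ Qbar, FiniteDimensional ℚ K ∧
      ∀ R ∈ s, ∀ σ ∈ K.fixingSubgroup, σ • R = R := by
  induction s, hs using Set.Finite.induction_on with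
  | empty => exact ⟨⊥, inferInstance, fun R hR => absurd hR (Set.notMem_empty R)⟩
  | @insert a s _ _ ih =>
    obtain ⟨K, hK, h⟩ := ih
    obtain ⟨E, hE, h'⟩ := hsmooth a
    refine ⟨K ⊔ E, IntermediateField.finiteDimensional_sup K E, ?_⟩
    intro R hR σ hσ
    rw [IntermediateField.fixingSubgroup_sup] at hσ
    rcases hR with rfl | hR
    · exact h' σ hσ.2
    · exact h R hR σ hσ.1

/-- **Abstract weak Mordell-Weil.** -/
theorem weakMW_abstract {J : Type*} [AddCommGroup J] [DistribMulAction GQ J] (n : ℕ) (hn : 0 < n)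
    (hfin : {R : J | n • R = 0}.Finite)
    (hdiv : ∀ P : J, (∀ σ : GQ, σ • P = P) → ∃ Q : J, n • Q = P)
    (hsmooth : ∀ Q : J, ∃ E : IntermediateField ℚ Qbar, FiniteDimensional ℚ E ∧
      ∀ σ ∈ E.fixingSubgroup, σ • Q = Q)
    (T : Finset ℕ)
    (hunr : ∀ Q : J, (∀ σ : GQ, σ • (n • Q) = n • Q) → ∀ ℓ : ℕ, ℓ.Prime → ℓ ∉ T →
      ∀ A : ValuationSubring Qbar, A.LiesOverPrime ℓ → ∀ σ ∈ A.inertiaSubgroupIn ℚ, σ • Q = Q) :
    (nsmulAddMonoidHom (α := ↥(FixedPoints.addSubgroup GQ J)) n).range.FiniteIndex := by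
  classical
  obtain ⟨K, hKfd, hK⟩ := exists_field_of_finite hsmooth _ hfin
  obtain ⟨L, hLfd, _, _, hL⟩ := exists_level_division K n hn T
  have hdiv' : ∀ P : FixedPoints.addSubgroup GQ J, ∃ Q : J, n • Q = (P : J) := fun P =>
    hdiv P (fun σ => P.2 σ)
  choose Q hQ using hdiv'
  have hQfix : ∀ (P : FixedPoints.addSubgroup GQ J) (σ : GQ), σ • (n • Q P) = n • Q P := by
    intro P σ
    rw [hQ]
    exact P.2 σ
  have hQL : ∀ P, ∀ σ ∈ L.fixingSubgroup, σ • Q P = Q P := fun P =>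
    hL J (fun R hR σ hσ => hK R hR σ hσ) (Q P) (fun σ _ => hQfix P σ) (hsmooth (Q P))
      (fun ℓ hℓ hℓT A hA σ hσ _ => hunr (Q P) (hQfix P) ℓ hℓ hℓT A hA σ hσ)
  have hidx : L.fixingSubgroup.FiniteIndex := by
    refine ⟨?_⟩
    rw [Fermat.Agent.S55.P.index_fixingSubgroup]
    exact Module.finrank_pos.ne'
  have hfinq : Finite (GQ ⧸ L.fixingSubgroup) := Subgroup.finite_quotient_of_finiteIndex
  have hfint : Finite {R : J | n • R = 0} := hfin
  -- the Kummer map
  let Φ : FixedPoints.addSubgroup GQ J → (GQ ⧸ L.fixingSubgroup → {R : J | n • R = 0}) :=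
    fun P x => ⟨x.out • Q P - Q P, by
      show n • (x.out • Q P - Q P) = 0
      rw [smul_sub, ← smul_comm x.out n (Q P), hQfix P, sub_self]⟩
  have hΦ : ∀ P (σ : GQ), ((Φ P (QuotientGroup.mk σ) : {R : J | n • R = 0}) : J) = σ • Q P - Q P := by
    intro P σ
    show (QuotientGroup.mk σ : GQ ⧸ L.fixingSubgroup).out • Q P - Q P = σ • Q P - Q P
    obtain ⟨τ, hτ⟩ := QuotientGroup.mk_out_eq_mul L.fixingSubgroup σ
    rw [hτ, mul_smul, hQL P τ τ.2]
  have key : ∀ P P', Φ P = Φ P' →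
      (QuotientAddGroup.mk P : _ ⧸ (nsmulAddMonoidHom (α := ↥(FixedPoints.addSubgroup GQ J)) n).range)
        = QuotientAddGroup.mk P' := by
    intro P P' h
    rw [QuotientAddGroup.eq]
    have hfix : ∀ σ : GQ, σ • (Q P' - Q P) = Q P' - Q P := by
      intro σ
      have h1 := hΦ P σ
      have h2 := hΦ P' σ
      rw [h] at h1
      rw [h1] at h2
      rw [smul_sub]
      have h3 : σ • Q P' = σ • Q P - Q P + Q P' := by rw [h2]; abel
      rw [h3]
      abel
    refine ⟨⟨Q P' - Q P, hfix⟩, ?_⟩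
    apply Subtype.ext
    show n • (Q P' - Q P) = -(P : J) + P'
    rw [smul_sub, hQ, hQ]
    abel
  have hfinquot : Finite (↥(FixedPoints.addSubgroup GQ J) ⧸
      (nsmulAddMonoidHom (α := ↥(FixedPoints.addSubgroup GQ J)) n).range) := by
    let g : Set.range Φ → (↥(FixedPoints.addSubgroup GQ J) ⧸
      (nsmulAddMonoidHom (α := ↥(FixedPoints.addSubgroup GQ J)) n).range) :=
      fun y => QuotientAddGroup.mk y.2.choose
    refine Finite.of_surjective g ?_
    intro x
    obtain ⟨P, rfl⟩ := QuotientAddGroup.mk_surjective x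
    refine ⟨⟨Φ P, P, rfl⟩, ?_⟩
    exact key _ _ (Exists.choose_spec (⟨P, rfl⟩ : ∃ P', Φ P' = Φ P))
  exact AddSubgroup.finiteIndex_of_finite_quotient

end Fermat.Agent.S17.NF
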